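/-
Project C1 (S34 + S35), architect helper23.  TASK C1-R1: algebra of the relation `RedS`
(series-level Gauss normalisation).  Pure algebra: `incl A`, `red A` are ring homs, `incl A` is
injective, `LaurentSeries k` is a field, `A` is a valuation ring.
-/
import Fermat.Agent.C1.Defs
import Fermat.Agent.GAL.E.Bound

set_option autoImplicit false

noncomputable section

namespace Fermat.Agent.C1

open ModularCurve Fermat.Agent.S24 Fermat.Agent.S24.B Fermat.Agent.GAL.E

variable {A : ValuationSubring Kbar} {f g : LaurentSeries Kbar} {c c' : Kbar}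
  {r r' : LaurentSeries (IsLocalRing.ResidueField A)}

/-! ### helper lemmas -/

theorem incl_C (a : A) : incl A (HahnSeries.C a) = HahnSeries.C (a : Kbar) :=
  coeffMap_single A.subtype 0 a

theorem red_C (a : A) : red A (HahnSeries.C a) = HahnSeries.C (IsLocalRing.residue A a) :=
  coeffMap_single (IsLocalRing.residue A) 0 a

theorem incl_ne_zero_of_red_ne_zero {P : LaurentSeries A} (hP : red A P ≠ 0) : incl A P ≠ 0 := by
  intro h
  apply hP
  have : P = 0 := incl_injective A (by rw [h, map_zero])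
  rw [this, map_zero]

theorem hahnC_ne_zero {F : Type*} [Field F] {c : F} (hc : c ≠ 0) :
    (HahnSeries.C c : LaurentSeries F) ≠ 0 := by
  intro h
  apply hc
  have := HahnSeries.C_injective (Γ := ℤ) (R := F) (h.trans (map_zero _).symm)
  exact this

/-- the key step of the Gauss lemma -/
theorem isUnit_of_C_mul_incl (α : A) {U V : LaurentSeries A} (hV : red A V ≠ 0)
    (h : HahnSeries.C (α : Kbar) * incl A U = incl A V) :
    IsUnit α ∧ HahnSeries.C (IsLocalRing.residue A α) * red A U = red A V := by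
  have h1 : HahnSeries.C α * U = V := by
    apply incl_injective A
    rw [map_mul, incl_C, h]
  have h2 : HahnSeries.C (IsLocalRing.residue A α) * red A U = red A V := by
    rw [← h1, map_mul, red_C]
  refine ⟨?_, h2⟩
  by_contra hα
  have h3 : IsLocalRing.residue A α = 0 :=
    (IsLocalRing.residue_eq_zero_iff α).2 ((IsLocalRing.mem_maximalIdeal α).2 hα)
  rw [h3, map_zero, zero_mul] at h2
  exact hV h2.symm

/-! ### the lemmas of the task -/

theorem RedS.ne_zero (h : RedS A f c r) : f ≠ 0 := by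
  obtain ⟨hc, P, Q, hP, hQ, h1, h2⟩ := h
  rintro rfl
  rw [zero_mul] at h1
  exact mul_ne_zero (hahnC_ne_zero hc) (incl_ne_zero_of_red_ne_zero hP) h1.symm

theorem RedS.red_ne_zero (h : RedS A f c r) : r ≠ 0 := by
  obtain ⟨hc, P, Q, hP, hQ, h1, h2⟩ := h
  rintro rfl
  rw [zero_mul] at h2
  exact hP h2.symm

theorem RedS.one : RedS A 1 1 1 :=
  ⟨one_ne_zero, 1, 1, by rw [map_one]; exact one_ne_zero, by rw [map_one]; exact one_ne_zero,
    by rw [map_one, map_one], by rw [map_one, one_mul]⟩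

theorem RedS.const (hc : c ≠ 0) : RedS A (HahnSeries.C c) c 1 :=
  ⟨hc, 1, 1, by rw [map_one]; exact one_ne_zero, by rw [map_one]; exact one_ne_zero, rfl,
    by rw [map_one, one_mul]⟩

/-- an `A`-integral series with nonzero reduction -/
theorem RedS.of_integral (P : LaurentSeries A) (hP : red A P ≠ 0) : RedS A (incl A P) 1 (red A P) :=
  ⟨one_ne_zero, P, 1, hP, by rw [map_one]; exact one_ne_zero,
    by rw [map_one, map_one, mul_one, one_mul], by rw [map_one, mul_one]⟩

theorem RedS.mul (h : RedS A f c r) (h' : RedS A g c' r') : RedS A (f * g) (c * c') (r * r') := by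
  obtain ⟨hc, P, Q, hP, hQ, h1, h2⟩ := h
  obtain ⟨hc', P', Q', hP', hQ', h1', h2'⟩ := h'
  refine ⟨mul_ne_zero hc hc', P * P', Q * Q', ?_, ?_, ?_, ?_⟩
  · rw [map_mul]; exact mul_ne_zero hP hP'
  · rw [map_mul]; exact mul_ne_zero hQ hQ'
  · rw [map_mul, map_mul, map_mul]
    calc f * g * (incl A Q * incl A Q') = (f * incl A Q) * (g * incl A Q') := by ring
      _ = (HahnSeries.C c * incl A P) * (HahnSeries.C c' * incl A P') := by rw [h1, h1']
      _ = _ := by ring
  · rw [map_mul, map_mul]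
    calc r * r' * (red A Q * red A Q') = (r * red A Q) * (r' * red A Q') := by ring
      _ = _ := by rw [h2, h2']

theorem RedS.inv (h : RedS A f c r) : RedS A f⁻¹ c⁻¹ r⁻¹ := by
  have hf := h.ne_zero
  have hr := h.red_ne_zero
  obtain ⟨hc, P, Q, hP, hQ, h1, h2⟩ := h
  have hC : (HahnSeries.C c : LaurentSeries Kbar) ≠ 0 := hahnC_ne_zero hc
  refine ⟨inv_ne_zero hc, Q, P, hQ, hP, ?_, ?_⟩
  · rw [map_inv₀]
    field_simp
    rw [mul_comm, ← h1, mul_comm]
  · rw [← h2]
    field_simp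

theorem RedS.div (h : RedS A f c r) (h' : RedS A g c' r') : RedS A (f / g) (c / c') (r / r') := by
  rw [div_eq_mul_inv, div_eq_mul_inv, div_eq_mul_inv]
  exact h.mul h'.inv

theorem RedS.pow (h : RedS A f c r) (m : ℕ) : RedS A (f ^ m) (c ^ m) (r ^ m) := by
  induction m with
  | zero => simpa using RedS.one
  | succ m ih =>
    rw [pow_succ, pow_succ, pow_succ]
    exact ih.mul h

theorem RedS.prod {ι : Type*} (s : Finset ι) {F : ι → LaurentSeries Kbar} {C : ι → Kbar}
    {R : ι → LaurentSeries (IsLocalRing.ResidueField A)} (h : ∀ i ∈ s, RedS A (F i) (C i) (R i)) :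
    RedS A (∏ i ∈ s, F i) (∏ i ∈ s, C i) (∏ i ∈ s, R i) := by
  classical
  induction s using Finset.induction_on with
  | empty => simpa using RedS.one
  | insert a s ha ih =>
    rw [Finset.prod_insert ha, Finset.prod_insert ha, Finset.prod_insert ha]
    exact (h a (Finset.mem_insert_self a s)).mul
      (ih fun i hi => h i (Finset.mem_insert_of_mem hi))

/-- Gauss lemma: the normalisation is unique up to a unit of `A`. -/
theorem RedS.unique (h : RedS A f c r) (h' : RedS A f c' r') :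
    ∃ a : Aˣ, c = ((a : A) : Kbar) * c' ∧ r' = HahnSeries.C (IsLocalRing.residue A (a : A)) * r := by
  obtain ⟨hc, P, Q, hP, hQ, h1, h2⟩ := h
  obtain ⟨hc', P', Q', hP', hQ', h1', h2'⟩ := h'
  have hC : (HahnSeries.C c : LaurentSeries Kbar) ≠ 0 := hahnC_ne_zero hc
  have hC' : (HahnSeries.C c' : LaurentSeries Kbar) ≠ 0 := hahnC_ne_zero hc'
  have hU : red A (P * Q') ≠ 0 := by rw [map_mul]; exact mul_ne_zero hP hQ'
  have hV : red A (P' * Q) ≠ 0 := by rw [map_mul]; exact mul_ne_zero hP' hQ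
  -- the basic relation
  have hrel : HahnSeries.C c * incl A (P * Q') = HahnSeries.C c' * incl A (P' * Q) := by
    rw [map_mul, map_mul]
    calc HahnSeries.C c * (incl A P * incl A Q') = (HahnSeries.C c * incl A P) * incl A Q' := by ring
      _ = (f * incl A Q') * incl A Q := by rw [← h1]; ring
      _ = _ := by rw [h1']; ring
  -- `c / c'` is a unit of `A`
  have key : ∃ α : A, (α : Kbar) = c / c' ∧ IsUnit α ∧
      HahnSeries.C (IsLocalRing.residue A α) * red A (P * Q') = red A (P' * Q) := by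
    rcases A.mem_or_inv_mem (c / c') with ha | ha
    · have h3 : HahnSeries.C (c / c') * incl A (P * Q') = incl A (P' * Q) := by
        rw [map_div₀, div_mul_eq_mul_div, hrel, mul_div_cancel_left₀ _ hC']
      obtain ⟨hu, h4⟩ := isUnit_of_C_mul_incl (⟨c / c', ha⟩ : A) hV h3
      exact ⟨⟨c / c', ha⟩, rfl, hu, h4⟩
    · have h3 : HahnSeries.C (c / c')⁻¹ * incl A (P' * Q) = incl A (P * Q') := by
        rw [inv_div, map_div₀, div_mul_eq_mul_div, ← hrel, mul_div_cancel_left₀ _ hC]
      obtain ⟨hu, h4⟩ := isUnit_of_C_mul_incl (⟨(c / c')⁻¹, ha⟩ : A) hU h3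
      obtain ⟨u, hu'⟩ := hu
      have hmul : ((u⁻¹ : Aˣ) : A) * (⟨(c / c')⁻¹, ha⟩ : A) = 1 := by
        rw [← hu']; exact u.inv_mul
      refine ⟨((u⁻¹ : Aˣ) : A), ?_, (u⁻¹).isUnit, ?_⟩
      · have h5 := congrArg (Subtype.val : A → Kbar) hmul
        have h6 : (((u⁻¹ : Aˣ) : A) : Kbar) * (c / c')⁻¹ = 1 := h5
        exact eq_of_mul_inv_eq_one h6 |>.trans rfl
      · rw [← h4, ← mul_assoc, ← map_mul, ← map_mul, hmul, map_one, map_one, one_mul]
  obtain ⟨α, hα, ⟨a, ha⟩, h4⟩ := key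
  refine ⟨a, ?_, ?_⟩
  · rw [ha, hα, div_mul_cancel₀ _ hc']
  · rw [ha]
    have h5 : r' * (red A Q' * red A Q) =
        (HahnSeries.C (IsLocalRing.residue A α) * r) * (red A Q' * red A Q) := by
      calc r' * (red A Q' * red A Q) = (r' * red A Q') * red A Q := by ring
        _ = red A (P' * Q) := by rw [h2', map_mul]
        _ = HahnSeries.C (IsLocalRing.residue A α) * (red A P * red A Q') := by
            rw [← h4, map_mul]
        _ = _ := by rw [← h2]; ring
    exact mul_right_cancel₀ (mul_ne_zero hQ' hQ) h5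

theorem RedS.rescale (h : RedS A f c r) (a : Aˣ) :
    RedS A f (((a : A) : Kbar) * c) (HahnSeries.C (IsLocalRing.residue A ((a⁻¹ : Aˣ) : A)) * r) := by
  obtain ⟨hc, P, Q, hP, hQ, h1, h2⟩ := h
  have hmul : (a : A) * ((a⁻¹ : Aˣ) : A) = 1 := a.mul_inv
  have ha0 : ((a : A) : Kbar) ≠ 0 := by
    intro h0
    have h5 := congrArg (Subtype.val : A → Kbar) hmul
    have h6 : ((a : A) : Kbar) * (((a⁻¹ : Aˣ) : A) : Kbar) = 1 := h5
    rw [h0, zero_mul] at h6
    exact zero_ne_one h6
  have hres : IsLocalRing.residue A ((a⁻¹ : Aˣ) : A) ≠ 0 := by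
    intro h0
    have h5 := congrArg (IsLocalRing.residue A) hmul
    rw [map_mul, h0, mul_zero, map_one] at h5
    exact zero_ne_one h5
  refine ⟨mul_ne_zero ha0 hc, HahnSeries.C ((a⁻¹ : Aˣ) : A) * P, Q, ?_, hQ, ?_, ?_⟩
  · rw [map_mul, red_C]
    exact mul_ne_zero (hahnC_ne_zero hres) hP
  · rw [h1, map_mul, map_mul, incl_C]
    have h7 : (HahnSeries.C ((a : A) : Kbar) : LaurentSeries Kbar) *
        HahnSeries.C (((a⁻¹ : Aˣ) : A) : Kbar) = 1 := by
      rw [← incl_C, ← incl_C, ← map_mul, ← map_mul, hmul, map_one, map_one]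
    calc HahnSeries.C c * incl A P = (HahnSeries.C ((a : A) : Kbar) *
          HahnSeries.C (((a⁻¹ : Aˣ) : A) : Kbar)) * (HahnSeries.C c * incl A P) := by
            rw [h7, one_mul]
      _ = _ := by ring
  · rw [map_mul, red_C, mul_assoc, h2]

/-- if `f` is `A`-integral with reduction zero then its normalising constant is a nonunit of `A` -/
theorem RedS.mem_nonunits (h : RedS A f c r) (P : LaurentSeries A) (hP : incl A P = f)
    (hP0 : red A P = 0) : c ∈ A.nonunits := by
  obtain ⟨hc, P₁, Q, hP₁, hQ, h1, h2⟩ := h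
  have hC : (HahnSeries.C c : LaurentSeries Kbar) ≠ 0 := hahnC_ne_zero hc
  rw [ValuationSubring.mem_nonunits_iff]
  by_contra hlt
  rw [not_lt] at hlt
  have hinv : c⁻¹ ∈ A := by
    rw [← A.valuation_le_one_iff, map_inv₀]
    exact inv_le_one_of_one_le₀ hlt
  have h3 : HahnSeries.C c⁻¹ * incl A (P * Q) = incl A P₁ := by
    rw [map_mul, hP, h1, map_inv₀, ← mul_assoc, inv_mul_cancel₀ hC, one_mul]
  obtain ⟨-, h4⟩ := isUnit_of_C_mul_incl (⟨c⁻¹, hinv⟩ : A) hP₁ h3
  rw [map_mul, hP0, zero_mul, mul_zero] at h4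
  exact hP₁ h4.symm

/-- `1 + f ≡ 1` if `v(f) > 0` -/
theorem RedS.one_add (h : RedS A f c r) (hc : c ∈ A.nonunits) : RedS A (1 + f) 1 1 := by
  obtain ⟨hc0, P, Q, hP, hQ, h1, h2⟩ := h
  obtain ⟨hcA, hcm⟩ := ValuationSubring.mem_nonunits_iff_exists_mem_maximalIdeal.1 hc
  have hres : IsLocalRing.residue A (⟨c, hcA⟩ : A) = 0 :=
    (IsLocalRing.residue_eq_zero_iff _).2 hcm
  have hred : red A (Q + HahnSeries.C (⟨c, hcA⟩ : A) * P) = red A Q := by
    rw [map_add, map_mul, red_C, hres, map_zero, zero_mul, add_zero]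
  refine ⟨one_ne_zero, Q + HahnSeries.C (⟨c, hcA⟩ : A) * P, Q, ?_, hQ, ?_, ?_⟩
  · rw [hred]; exact hQ
  · rw [add_mul, one_mul, h1, map_one, one_mul, map_add, map_mul, incl_C]
  · rw [hred, one_mul]

end Fermat.Agent.C1

end
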