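/-
Project C1 (S34 + S35), architect helper23.  TASK C1-R2: behaviour of `RedS` under `Q ↦ Q^m`,
`Q ↦ ζ Q`, and under the decomposition group.  Uses GAL/E/{Frob,GalRed}.  Proofs: helper82.
-/
import Fermat.Agent.C1.Defs
import Fermat.Agent.GAL.E.Bound
import Fermat.Agent.GAL.E.Frob
import Fermat.Agent.GAL.E.GalRed
import Fermat.Agent.GAL.E.HeckeBasic

set_option autoImplicit false

noncomputable section

namespace Fermat.Agent.C1

open ModularCurve Fermat.Agent.S24 Fermat.Agent.S24.B Fermat.Agent.GAL.E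

variable {A : ValuationSubring Kbar} {f : LaurentSeries Kbar} {c : Kbar}
  {r : LaurentSeries (IsLocalRing.ResidueField A)}

namespace Ops

/-- the series `∑ aₙ zⁿ Qⁿ` over `A`, for a unit `z` of `A` -/
def twA (z : Aˣ) (x : LaurentSeries A) : LaurentSeries A where
  coeff n := ((z ^ n : Aˣ) : A) * x.coeff n
  isPWO_support' := x.isPWO_support.mono (by
    intro n hn
    simp only [Function.mem_support, ne_eq] at hn
    rw [HahnSeries.mem_support]
    intro h0
    exact hn (by rw [h0, mul_zero]))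

theorem incl_twA (ζ : Kbarˣ) (z : Aˣ) (hz : ((z : A) : Kbar) = (ζ : Kbar)) (x : LaurentSeries A) :
    incl A (twA z x) = twist ζ (incl A x) := by
  have h1 : Units.map (A.subtype : A →* Kbar) z = ζ := Units.ext hz
  ext n
  rw [twist_coeff, coeffMap_coeff, coeffMap_coeff, ← h1, ← map_zpow, Units.coe_map]
  show A.subtype (((z ^ n : Aˣ) : A) * x.coeff n) = _
  rw [map_mul]
  rfl

theorem red_twA (z : Aˣ) (x : LaurentSeries A) :
    red A (twA z x) = twist (Units.map (IsLocalRing.residue A : A →* _) z) (red A x) := by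
  ext n
  rw [twist_coeff, coeffMap_coeff, coeffMap_coeff, ← map_zpow, Units.coe_map]
  show IsLocalRing.residue A (((z ^ n : Aˣ) : A) * x.coeff n) = _
  rw [map_mul]
  rfl

theorem coeffMap_C' {R S : Type*} [CommRing R] [CommRing S] (φ : R →+* S) (a : R) :
    coeffMap φ (HahnSeries.C a) = HahnSeries.C (φ a) := by
  rw [HahnSeries.C_apply, HahnSeries.C_apply, coeffMap_single]

theorem coeffMap_ne_zero {R S : Type*} [CommRing R] [CommRing S] (φ : R →+* S)
    (hφ : Function.Injective φ) {x : LaurentSeries R} (hx : x ≠ 0) : coeffMap φ x ≠ 0 := by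
  intro h
  apply hx
  ext k
  have := congrArg (fun y => HahnSeries.coeff y k) h
  simp only [coeffMap_coeff, HahnSeries.coeff_zero] at this
  rw [HahnSeries.coeff_zero]
  exact hφ (by rw [this, map_zero])

end Ops

open Ops

theorem RedS.map_qExpand (h : RedS A f c r) (m : ℕ) [NeZero m] :
    RedS A (qExpand Kbar m f) c (qExpand (IsLocalRing.ResidueField A) m r) := by
  obtain ⟨hc, P, Q, hP, hQ, e1, e2⟩ := h
  refine ⟨hc, qExpand A m P, qExpand A m Q, ?_, ?_, ?_, ?_⟩
  · rw [HeckeBasic.coeffMap_qExpand]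
    exact fun h0 => hP (qExpand_injective' m (by rw [h0, map_zero]))
  · rw [HeckeBasic.coeffMap_qExpand]
    exact fun h0 => hQ (qExpand_injective' m (by rw [h0, map_zero]))
  · rw [HeckeBasic.coeffMap_qExpand, HeckeBasic.coeffMap_qExpand, ← map_mul, e1, map_mul,
      qExpand_C]
  · rw [HeckeBasic.coeffMap_qExpand, HeckeBasic.coeffMap_qExpand, ← map_mul, e2]

/-- twisting by a unit of `A` -/
theorem RedS.map_twist (h : RedS A f c r) (ζ : Kbarˣ) (z : Aˣ) (hz : ((z : A) : Kbar) = (ζ : Kbar)) :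
    RedS A (twist ζ f) c (twist (Units.map (IsLocalRing.residue A : A →* _) z) r) := by
  obtain ⟨hc, P, Q, hP, hQ, e1, e2⟩ := h
  refine ⟨hc, twA z P, twA z Q, ?_, ?_, ?_, ?_⟩
  · rw [red_twA]
    exact fun h0 => hP ((twist_eq_zero_iff _ _).1 h0)
  · rw [red_twA]
    exact fun h0 => hQ ((twist_eq_zero_iff _ _).1 h0)
  · rw [incl_twA ζ z hz, incl_twA ζ z hz, ← map_mul, e1, map_mul, twist_C]
  · rw [red_twA, red_twA, ← map_mul, e2]

/-- a root of unity is a unit of `A` -/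
theorem exists_unit_of_pow_eq_one (A : ValuationSubring Kbar) (ζ : Kbarˣ) (m : ℕ) (hm : m ≠ 0)
    (hζ : ζ ^ m = 1) : ∃ z : Aˣ, ((z : A) : Kbar) = (ζ : Kbar) := by
  have hv : A.valuation (ζ : Kbar) = 1 := by
    have h := congrArg (fun u : Kbarˣ => A.valuation (u : Kbar)) hζ
    simp only [Units.val_pow_eq_pow_val, map_pow, Units.val_one, map_one] at h
    exact (pow_eq_one_iff.mp h).resolve_right hm
  have hzA : (ζ : Kbar) ∈ A := (A.valuation_le_one_iff _).mp hv.le
  have hu : IsUnit (⟨(ζ : Kbar), hzA⟩ : A) := (A.valuation_eq_one_iff _).2 hv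
  obtain ⟨z, hz⟩ := hu
  exact ⟨z, by rw [hz]⟩

/-- twisting by a root of unity preserves `≡ const` -/
theorem RedS.map_twist_one (h : RedS A f c 1) (ζ : Kbarˣ) (m : ℕ) (hm : m ≠ 0) (hζ : ζ ^ m = 1) :
    RedS A (twist ζ f) c 1 := by
  obtain ⟨z, hz⟩ := exists_unit_of_pow_eq_one A ζ m hm hζ
  have := h.map_twist ζ z hz
  rwa [map_one] at this

/-- twisting by a `q`-th root of unity does not change the reduction in residue characteristic
`q` -/
theorem RedS.map_twist_char (h : RedS A f c r) {q : ℕ} (hq : q.Prime) (hA : A.LiesOverPrime q)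
    (ζ : Kbarˣ) (hζ : ζ ^ q = 1) : RedS A (twist ζ f) c r := by
  obtain ⟨hc, P, Q, hP, hQ, e1, e2⟩ := h
  obtain ⟨P', hP1, hP2⟩ := exists_twist A q hq hA ζ hζ P
  obtain ⟨Q', hQ1, hQ2⟩ := exists_twist A q hq hA ζ hζ Q
  refine ⟨hc, P', Q', by rwa [hP2], by rwa [hQ2], ?_, by rw [hP2, hQ2, e2]⟩
  rw [hP1, hQ1, ← map_mul, e1, map_mul, twist_C]

theorem RedS.gal_inertia (h : RedS A f c r) (τ : GQ) (hτ : τ ∈ A.inertiaSubgroupIn ℚ) :
    RedS A (coeffMap (τ : Kbar →+* Kbar) f) (τ c) r := by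
  obtain ⟨hc, P, Q, hP, hQ, e1, e2⟩ := h
  obtain ⟨P', hP1, hP2⟩ := exists_gal_of_inertia A τ hτ P
  obtain ⟨Q', hQ1, hQ2⟩ := exists_gal_of_inertia A τ hτ Q
  refine ⟨by simpa using hc, P', Q', by rwa [hP2], by rwa [hQ2], ?_, by rw [hP2, hQ2, e2]⟩
  rw [hP1, hQ1, ← map_mul, e1, map_mul, coeffMap_C']
  rfl

theorem RedS.gal_frobenius (h : RedS A f c r) (q : ℕ) [Fact q.Prime]
    [CharP (IsLocalRing.ResidueField A) q] (σ : GQ) (hσ : A.IsFrobeniusAt σ q) :
    RedS A (coeffMap (σ : Kbar →+* Kbar) f) (σ c)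
      (coeffMap (frobenius (IsLocalRing.ResidueField A) q) r) := by
  obtain ⟨hc, P, Q, hP, hQ, e1, e2⟩ := h
  obtain ⟨P', hP1, hP2⟩ := exists_gal_of_frobenius A q σ hσ P
  obtain ⟨Q', hQ1, hQ2⟩ := exists_gal_of_frobenius A q σ hσ Q
  have hinj : Function.Injective (frobenius (IsLocalRing.ResidueField A) q) :=
    (frobenius (IsLocalRing.ResidueField A) q).injective
  refine ⟨by simpa using hc, P', Q', ?_, ?_, ?_, ?_⟩
  · rw [hP2]; exact coeffMap_ne_zero _ hinj hP
  · rw [hQ2]; exact coeffMap_ne_zero _ hinj hQ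
  · rw [hP1, hQ1, ← map_mul, e1, map_mul, coeffMap_C']
    rfl
  · rw [hP2, hQ2, ← map_mul, e2]

end Fermat.Agent.C1

end
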