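/-
Project C1 (S34 + S35), architect helper23.  TASK C1-R3: `RedS` for elements of the function field
`FN N` (existence from `GAL.E.exists_scaling`), comparison with `Cong1`, descent along `Q ↦ Q^m`.
Proofs: helper275.
-/
import Fermat.Agent.C1.Red.Basic
import Fermat.Agent.C1.Red.Ops
import Fermat.Agent.GAL.E.Scaling

set_option autoImplicit false

noncomputable section

namespace Fermat.Agent.C1

open ModularCurve Fermat.Agent.S24 Fermat.Agent.S24.B Fermat.Agent.GAL.E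

variable {A : ValuationSubring Kbar} {q : ℕ}

namespace RedField

theorem incl_C (A : ValuationSubring Kbar) (a : A) :
    incl A (HahnSeries.C a) = HahnSeries.C (a : Kbar) := coeffMap_single _ _ _

theorem red_C (A : ValuationSubring Kbar) (a : A) :
    red A (HahnSeries.C a) = HahnSeries.C (IsLocalRing.residue A a) := coeffMap_single _ _ _

theorem incl_ne_zero {P : LaurentSeries A} (hP : red A P ≠ 0) : incl A P ≠ 0 := by
  intro h
  apply hP
  have : P = 0 := incl_injective A (by rw [h, map_zero])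
  rw [this, map_zero]

theorem mk_ne_zero {N : ℕ} {P : LaurentSeries A} (hP : red A P ≠ 0)
    (h : incl A P ∈ modularFunctionFieldBar N) : (⟨incl A P, h⟩ : FN N) ≠ 0 := by
  intro h0
  exact incl_ne_zero hP (congrArg Subtype.val h0)

theorem coe_div {N : ℕ} (x y : FN N) :
    ((x / y : FN N) : LaurentSeries Kbar) = (x : LaurentSeries Kbar) / (y : LaurentSeries Kbar) :=
  rfl

theorem coe_mul {N : ℕ} (x y : FN N) :
    ((x * y : FN N) : LaurentSeries Kbar) = (x : LaurentSeries Kbar) * (y : LaurentSeries Kbar) :=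
  rfl

theorem coe_algebraMap {N : ℕ} (c : Kbar) :
    ((algebraMap Kbar (FN N) c : FN N) : LaurentSeries Kbar) = HahnSeries.C c :=
  scaling_algebraMap c

/-- the scaling data as a `RedS`. -/
theorem redS_of_scaling {N : ℕ} {u : FN N} {c : Kbar} {x y : LaurentSeries A}
    (hx : incl A x ∈ modularFunctionFieldBar N) (hy : incl A y ∈ modularFunctionFieldBar N)
    (hc : c ≠ 0) (hrx : red A x ≠ 0) (hry : red A y ≠ 0)
    (hu : u = algebraMap Kbar (FN N) c * ((⟨incl A x, hx⟩ : FN N) / ⟨incl A y, hy⟩)) :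
    RedS A (u : LaurentSeries Kbar) c (red A x / red A y) := by
  refine ⟨hc, x, y, hrx, hry, ?_, div_mul_cancel₀ _ hry⟩
  rw [hu, coe_mul, coe_div, coe_algebraMap, mul_assoc, div_mul_cancel₀ _ (incl_ne_zero hry)]

end RedField

open RedField

theorem exists_redS (hq : q.Prime) (hA : A.LiesOverPrime q) {N : ℕ} (u : FN N) (hu : u ≠ 0) :
    ∃ (c : Kbar) (r : LaurentSeries (IsLocalRing.ResidueField A)),
      RedS A (u : LaurentSeries Kbar) c r := by
  obtain ⟨c, x, y, hx, hy, hc, hrx, hry, hu'⟩ := exists_scaling A q hq hA N u hu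
  exact ⟨c, _, redS_of_scaling hx hy hc hrx hry hu'⟩

theorem Cong1.redS {N : ℕ} {u : FN N} (h : Cong1 A N u) : RedS A (u : LaurentSeries Kbar) 1 1 := by
  obtain ⟨P, Q, hP, hQ, hPQ, hQ0, hu⟩ := h
  refine ⟨one_ne_zero, P, Q, hPQ ▸ hQ0, hQ0, ?_, ?_⟩
  · rw [hu, coe_div, map_one, one_mul, div_mul_cancel₀ _ (incl_ne_zero hQ0)]
  · rw [one_mul, hPQ]

theorem cong1_of_redS (hq : q.Prime) (hA : A.LiesOverPrime q) {N : ℕ} {u : FN N}
    (h : RedS A (u : LaurentSeries Kbar) 1 1) : Cong1 A N u := by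
  have hu0 : u ≠ 0 := by
    rintro rfl
    exact h.ne_zero rfl
  obtain ⟨c, x, y, hx, hy, hc, hrx, hry, hu⟩ := exists_scaling A q hq hA N u hu0
  obtain ⟨a, ha1, ha2⟩ := h.unique (redS_of_scaling hx hy hc hrx hry hu)
  rw [mul_one] at ha2
  -- `c = a⁻¹`
  have hca : c = (((a⁻¹ : Aˣ) : A) : Kbar) := by
    have h1 : (((a⁻¹ : Aˣ) : A) : Kbar) * ((a : A) : Kbar) = 1 := by
      have h0 : ((a⁻¹ : Aˣ) : A) * (a : A) = 1 := Units.inv_mul a
      exact congrArg Subtype.val h0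
    calc c = ((((a⁻¹ : Aˣ) : A) : Kbar) * ((a : A) : Kbar)) * c := by rw [h1, one_mul]
      _ = (((a⁻¹ : Aˣ) : A) : Kbar) * (((a : A) : Kbar) * c) := mul_assoc _ _ _
      _ = _ := by rw [← ha1, mul_one]
  have hinclP : incl A (HahnSeries.C ((a⁻¹ : Aˣ) : A) * x) = HahnSeries.C c * incl A x := by
    rw [map_mul, incl_C, hca]
  have hPmem : incl A (HahnSeries.C ((a⁻¹ : Aˣ) : A) * x) ∈ modularFunctionFieldBar N := by
    rw [hinclP]
    exact mul_mem (scaling_C_mem N c) hx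
  refine ⟨HahnSeries.C ((a⁻¹ : Aˣ) : A) * x, y, hPmem, hy, ?_, hry, ?_⟩
  · have h2 : red A x = HahnSeries.C (IsLocalRing.residue A (a : A)) * red A y := by
      rw [← ha2, div_mul_cancel₀ _ hry]
    rw [map_mul, red_C, h2, ← mul_assoc, ← map_mul, ← map_mul, Units.inv_mul, map_one, map_one,
      one_mul]
  · apply Subtype.ext
    rw [hu, coe_mul, coe_div, coe_div, coe_algebraMap]
    show HahnSeries.C c * (incl A x / incl A y) =
      incl A (HahnSeries.C ((a⁻¹ : Aˣ) : A) * x) / incl A y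
    rw [hinclP, mul_div_assoc]

theorem cong1_iff (hq : q.Prime) (hA : A.LiesOverPrime q) {N : ℕ} (u : FN N) :
    Cong1 A N u ↔ RedS A (u : LaurentSeries Kbar) 1 1 :=
  ⟨Cong1.redS, cong1_of_redS hq hA⟩

/-- descent of the normalisation along `Q ↦ Q^m` -/
theorem RedS.of_qExpand (hq : q.Prime) (hA : A.LiesOverPrime q) {N : ℕ} (u : FN N) (m : ℕ)
    [NeZero m] {c : Kbar} {r : LaurentSeries (IsLocalRing.ResidueField A)}
    (h : RedS A (qExpand Kbar m (u : LaurentSeries Kbar)) c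
      (qExpand (IsLocalRing.ResidueField A) m r)) :
    RedS A (u : LaurentSeries Kbar) c r := by
  have hu0 : u ≠ 0 := by
    rintro rfl
    apply h.ne_zero
    show qExpand Kbar m 0 = 0
    exact map_zero _
  obtain ⟨c', r', h'⟩ := exists_redS hq hA u hu0
  obtain ⟨a, ha1, ha2⟩ := h.unique (h'.map_qExpand m)
  have h3 := h'.rescale a
  rw [← ha1] at h3
  have h4 : HahnSeries.C (IsLocalRing.residue A ((a⁻¹ : Aˣ) : A)) * r' = r := by
    apply qExpand_injective (R := IsLocalRing.ResidueField A) m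
    rw [map_mul, qExpand_C, ha2, ← mul_assoc, ← map_mul, ← map_mul, Units.inv_mul, map_one,
      map_one, one_mul]
  rwa [h4] at h3

theorem Cong1.one (N : ℕ) : Cong1 A N 1 := by
  have h1 : incl A 1 ∈ modularFunctionFieldBar N := by
    rw [map_one]; exact one_mem _
  refine ⟨1, 1, h1, h1, rfl, ?_, ?_⟩
  · rw [map_one]; exact one_ne_zero
  · rw [div_self]
    exact mk_ne_zero (by rw [map_one]; exact one_ne_zero) h1

theorem Cong1.mul {N : ℕ} {u v : FN N} (hu : Cong1 A N u) (hv : Cong1 A N v) :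
    Cong1 A N (u * v) := by
  obtain ⟨P, Q, hP, hQ, hPQ, hQ0, rfl⟩ := hu
  obtain ⟨P', Q', hP', hQ', hPQ', hQ0', rfl⟩ := hv
  refine ⟨P * P', Q * Q', by rw [map_mul]; exact mul_mem hP hP',
    by rw [map_mul]; exact mul_mem hQ hQ', by rw [map_mul, map_mul, hPQ, hPQ'],
    by rw [map_mul]; exact mul_ne_zero hQ0 hQ0', ?_⟩
  apply Subtype.ext
  rw [coe_mul, coe_div, coe_div, coe_div]
  show incl A P / incl A Q * (incl A P' / incl A Q') = incl A (P * P') / incl A (Q * Q')
  rw [map_mul, map_mul, div_mul_div_comm]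

theorem Cong1.inv {N : ℕ} {u : FN N} (hu : Cong1 A N u) : Cong1 A N u⁻¹ := by
  obtain ⟨P, Q, hP, hQ, hPQ, hQ0, rfl⟩ := hu
  exact ⟨Q, P, hQ, hP, hPQ.symm, hPQ ▸ hQ0, by rw [inv_div]⟩

theorem Cong1.ne_zero {N : ℕ} {u : FN N} (hu : Cong1 A N u) : u ≠ 0 := by
  obtain ⟨P, Q, hP, hQ, hPQ, hQ0, rfl⟩ := hu
  exact div_ne_zero (mk_ne_zero (hPQ ▸ hQ0) hP) (mk_ne_zero hQ0 hQ)

end Fermat.Agent.C1

end
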